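import Fermat.Agent.MordellWeil.Summary
import Fermat.Agent.Torsion.Summary

/-!
# The structure of the group of rational points

The group is the product of one of the fifteen groups and a free group of finite rank.
-/

set_option autoImplicit false

noncomputable section

namespace FA.MordellWeil

/-- A finitely generated abelian group is its torsion times a free group of finite rank. -/
theorem exists_equiv_torsion_prod (G : Type*) [AddCommGroup G] [hG : AddGroup.FG G] :
    ∃ r : ℕ, Nonempty (G ≃+ AddCommGroup.torsion G × (Fin r → ℤ)) := by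
  have : Module.Finite ℤ G := Module.Finite.iff_addGroup_fg.mpr hG
  set T : Submodule ℤ G := Submodule.torsion ℤ G
  have : Module.Free ℤ (G ⧸ T) := Module.free_of_finite_type_torsion_free'
  obtain ⟨s, hs⟩ := T.mkQ.exists_rightInverse_of_surjective
    (LinearMap.range_eq_top.mpr T.mkQ_surjective)
  have hs' : ∀ q, T.mkQ (s q) = q := fun q => LinearMap.congr_fun hs q
  let e : G ≃+ T × (G ⧸ T) :=
    { toFun := fun g => (⟨g - s (T.mkQ g), (Submodule.Quotient.eq T).1 (hs' (T.mkQ g)).symm⟩, T.mkQ g)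
      invFun := fun p => p.1 + s p.2
      left_inv := fun g => sub_add_cancel g _
      right_inv := fun p => by
        have hq : T.mkQ ((p.1 : G) + s p.2) = p.2 := by
          rw [map_add, hs', T.mkQ_apply, (Submodule.Quotient.mk_eq_zero T).2 p.1.2, zero_add]
        refine Prod.ext (Subtype.ext ?_) hq
        show (p.1 : G) + s p.2 - s (T.mkQ _) = _
        rw [hq, add_sub_cancel_right]
      map_add' := fun g h => by
        refine Prod.ext (Subtype.ext ?_) (map_add _ _ _)
        show g + h - s (T.mkQ (g + h)) = g - s (T.mkQ g) + (h - s (T.mkQ h))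
        rw [map_add, map_add]
        abel }
  have hT : ∀ g : G, g ∈ T ↔ g ∈ AddCommGroup.torsion G := fun g => by
    rw [AddCommGroup.mem_torsion, isOfFinAddOrder_iff_zsmul_eq_zero, Submodule.mem_torsion_iff]
    exact ⟨fun ⟨⟨a, ha⟩, h⟩ => ⟨a, nonZeroDivisors.ne_zero ha, h⟩,
      fun ⟨a, ha, h⟩ => ⟨⟨a, mem_nonZeroDivisors_of_ne_zero ha⟩, h⟩⟩
  let eT : T ≃+ AddCommGroup.torsion G :=
    { toFun := fun x => ⟨x.1, (hT _).1 x.2⟩
      invFun := fun x => ⟨x.1, (hT _).2 x.2⟩
      left_inv := fun _ => rfl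
      right_inv := fun _ => rfl
      map_add' := fun _ _ => rfl }
  exact ⟨_, ⟨e.trans (eT.prodCongr (Module.finBasis ℤ (G ⧸ T)).equivFun.toAddEquiv)⟩⟩

/-- **The rational points of an elliptic curve over `ℚ`.** -/
theorem point_group_structure (E : WeierstrassCurve ℚ) [E.IsElliptic] :
    ∃ r : ℕ,
      (∃ n ∈ ({1, 2, 3, 4, 5, 6, 7, 8, 9, 10, 12} : Finset ℕ),
          Nonempty (E.toAffine.Point ≃+ ZMod n × (Fin r → ℤ))) ∨
        ∃ m ∈ ({1, 2, 3, 4} : Finset ℕ),
          Nonempty (E.toAffine.Point ≃+ (ZMod 2 × ZMod (2 * m)) × (Fin r → ℤ)) := by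
  have := mordell E
  obtain ⟨r, ⟨e⟩⟩ := exists_equiv_torsion_prod E.toAffine.Point
  refine ⟨r, ?_⟩
  rcases FA.Torsion.mazur_torsion E with ⟨n, hn, ⟨f⟩⟩ | ⟨m, hm, ⟨f⟩⟩
  · exact Or.inl ⟨n, hn, ⟨e.trans (f.prodCongr (AddEquiv.refl _))⟩⟩
  · exact Or.inr ⟨m, hm, ⟨e.trans (f.prodCongr (AddEquiv.refl _))⟩⟩

end FA.MordellWeil

end
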