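import Fermat.Agent.EC.TorsionGalois
import Fermat.Agent.EC.S51Aux
import Fermat.Agent.Frob.Reduction
import Fermat.Agent.GalCoh.GlobalDuality
import Fermat.Agent.Local.Primes

/-!
# Weak Mordell-Weil at three for elliptic curves over `ℚ`

Division by three sends the rational points to classes of degree one with values in the three
torsion which are unramified outside a finite set of primes; there are finitely many such classes.
-/

set_option autoImplicit false
set_option linter.unusedSectionVars false
set_option linter.style.haveILetI false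

noncomputable section

open WeierstrassCurve Polynomial FA.GalCoh FA.EC
open scoped WeierstrassCurve.Affine

namespace FA.MordellWeil

local notation "Qb" => AlgebraicClosure ℚ
local notation "GQ" => AlgebraicClosure ℚ ≃ₐ[ℚ] AlgebraicClosure ℚ

variable (W : WeierstrassCurve ℚ) [W.IsElliptic]

/-- Every point over `ℚ̄` is three times a point. -/
theorem exists_third (P : (W⁄Qb).Point) : ∃ Q : (W⁄Qb).Point, 3 • Q = P := by
  rcases eq_or_ne P 0 with rfl | hP
  · exact ⟨0, nsmul_zero 3⟩
  set x₀ := xc (W := W⁄Qb) P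
  set f : Qb[X] := (W⁄Qb).Φ 3 - C x₀ * (W⁄Qb).ΨSq 3 with hf
  have hc : f.coeff 9 = 1 := by
    rw [hf, coeff_sub, coeff_C_mul,
      coeff_eq_zero_of_natDegree_lt (p := (W⁄Qb).ΨSq 3)
        (lt_of_le_of_lt ((W⁄Qb).natDegree_ΨSq_le 3) (by decide)), mul_zero, sub_zero]
    simpa using (W⁄Qb).coeff_Φ 3
  obtain ⟨x, hx⟩ := IsAlgClosed.exists_root f fun h => by
    have hC := eq_C_of_degree_le_zero h.le
    rw [hC, coeff_C] at hc
    simp at hc
  rw [IsRoot.def, hf, eval_sub, eval_mul, eval_C, sub_eq_zero] at hx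
  obtain ⟨y, hy⟩ := exists_nonsingular (W⁄Qb) x
  have hΨ : ((W⁄Qb).ΨSq 3).eval x ≠ 0 := fun h => numDen_ne_zero (W⁄Qb) 3 x <| by
    rw [h, mul_zero] at hx
    funext i
    fin_cases i
    exacts [hx, h]
  have h0 : (3 : ℤ) • Affine.Point.some x y hy ≠ 0 := fun h => hΨ ((zsmul_eq_zero_iff hy 3).1 h)
  have hxc : xc ((3 : ℤ) • Affine.Point.some x y hy) = x₀ := by
    rw [xc_zsmul hy 3 h0, hx, mul_div_cancel_right₀ _ hΨ]
  rcases eq_or_eq_neg_of_xc_eq h0 hP hxc with h | h
  · exact ⟨Affine.Point.some x y hy, by rw [← h, ← natCast_zsmul]; rfl⟩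
  · exact ⟨-Affine.Point.some x y hy, by
      rw [neg_nsmul, ← natCast_zsmul]; exact neg_eq_iff_eq_neg.2 h⟩

/-- The three torsion. -/
abbrev Three : Type := Submodule.torsionBy ℤ (W⁄Qb).Point (3 : ℕ)

/-- The mod three representation. -/
def threeRep : Representation (ZMod 3) GQ (Three W) :=
  WeierstrassCurve.Affine.Point.galoisRepModuleEnd (K := Qb) ℚ W 3

theorem smooth_threeRep : Smooth LQ (threeRep W) := by
  obtain ⟨L, hL, h⟩ := galoisFactorsThroughFiniteLevel W (n := 3) (by norm_num)
  exact ⟨L.fixingSubgroup, fixingSubgroup_mem_fieldLevels L, fun s hs =>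
    h s fun x hx => (IntermediateField.mem_fixingSubgroup_iff _ _).1 hs x hx⟩

/-- A level on which the mod three cyclotomic character is trivial. -/
theorem exists_level_cyclo : ∃ M ∈ LQ.carrier, ∀ s ∈ M, (cycQ 3).χ s = 1 := by
  haveI := IntermediateField.adjoin.finiteDimensional (K := ℚ) (x := (cycQ 3).ζ)
    (Algebra.IsAlgebraic.isAlgebraic _).isIntegral
  refine ⟨(IntermediateField.adjoin ℚ {(cycQ 3).ζ}).fixingSubgroup,
    fixingSubgroup_mem_fieldLevels _, fun s hs => ?_⟩
  have hfix : (s : Qb → Qb) (cycQ 3).ζ = (cycQ 3).ζ :=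
    (IntermediateField.mem_fixingSubgroup_iff _ _).1 hs _
      (IntermediateField.mem_adjoin_simple_self ℚ _)
  have h := (cycQ 3).act s
  rw [show s • (cycQ 3).ζ = (cycQ 3).ζ from hfix] at h
  conv_lhs at h => rw [← pow_one (cycQ 3).ζ]
  refine Units.ext (ZMod.val_injective 3 ?_)
  rw [Units.val_one, ZMod.val_one]
  exact ((cycQ 3).prim.pow_inj (by norm_num) (ZMod.val_lt _) h).symm

/-- The twisted dual. -/
def threeDual : Representation (ZMod 3) GQ (Module.Dual (ZMod 3) (Three W)) where
  toFun g := ((cycQ 3).χ g : ZMod 3) • (threeRep W).dual g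
  map_one' := by rw [map_one, map_one, Units.val_one, one_smul]
  map_mul' g h := by
    rw [map_mul, map_mul, Units.val_mul]
    refine LinearMap.ext fun f => ?_
    simp only [LinearMap.smul_apply, Module.End.mul_apply, map_smul, smul_smul]
    rw [mul_comm]

/-- The dual pair of the three torsion. -/
def threePair : DPair LQ (cycQ 3).χ (threeRep W) (threeDual W) where
  β := Module.Dual.eval (ZMod 3) (Three W)
  bil g v f := by
    show ((cycQ 3).χ g : ZMod 3) * f (threeRep W g⁻¹ (threeRep W g v)) = _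
    rw [← Module.End.mul_apply, ← map_mul, inv_mul_cancel, map_one]
    rfl
  inj_left := Module.eval_apply_injective (ZMod 3)
  inj_right := fun a b h => LinearMap.ext fun v => LinearMap.congr_fun h v
  fin_left :=
    haveI := finite_torsion W (n := 3) (by norm_num)
    Module.Finite.of_finite
  fin_right :=
    haveI := finite_torsion W (n := 3) (by norm_num)
    haveI : Module.Finite (ZMod 3) (Three W) := Module.Finite.of_finite
    inferInstance
  smooth_left := smooth_threeRep W
  smooth_right := by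
    obtain ⟨M, hM, hρ⟩ := smooth_threeRep W
    obtain ⟨M', hM', hχ⟩ := exists_level_cyclo
    refine ⟨M ⊓ M', LQ.inf_mem hM hM', fun s hs => LinearMap.ext fun f => LinearMap.ext fun v => ?_⟩
    show ((cycQ 3).χ s : ZMod 3) * f (threeRep W s⁻¹ v) = f v
    rw [hχ s hs.2, Units.val_one, one_mul, hρ s⁻¹ (inv_mem hs.1)]
    rfl

/-- The integer whose prime factors are the bad primes. -/
def badNat : ℕ :=
  3 * W.a₁.den * W.a₂.den * W.a₃.den * W.a₄.den * W.a₆.den * W.Δ.num.natAbs * W.Δ.den

theorem badNat_ne_zero : badNat W ≠ 0 := by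
  simp [badNat, W.isUnit_Δ.ne_zero]

/-- The bad primes. -/
def badPrimes : Finset Nat.Primes := (badNat W).primeFactors.subtype Nat.Prime

theorem valuation_ratCast_le_one {A : ValuationSubring Qb} {q : ℕ} (hq : q.Prime)
    (hv : A.valuation (q : Qb) < 1) {c : ℚ} (hc : ¬ q ∣ c.den) :
    A.valuation (algebraMap ℚ Qb c) ≤ 1 := by
  rw [eq_ratCast, Rat.cast_def, map_div₀]
  have h : A.valuation ((c.den : ℤ) : Qb) = 1 :=
    FA.Local.natCast_eq_one_of_not_dvd hq hv (by exact_mod_cast hc)
  rw [Int.cast_natCast] at h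
  rw [h, div_one]
  exact FA.Local.intCast_le_one _

/-- Inertia at a good prime fixes every point some prime-to-`q` multiple of which it fixes. -/
theorem inertia_fix {q : ℕ} [Fact q.Prime] (hq : ¬ q ∣ badNat W) {σ : GQ}
    (hσ : σ ∈ (padicPlace q).inertiaSubgroupIn ℚ) {P : (W⁄Qb).Point}
    (hP : 3 • (σ • P - P) = 0) : σ • P - P = 0 := by
  classical
  set A := padicPlace q
  have hqp : q.Prime := Fact.out
  have hv : A.valuation (q : Qb) < 1 := A.mem_nonunits_iff.mp (liesOverPrime_padicPlace q)
  have hd : ∀ {m : ℕ}, m ∣ badNat W → ¬ q ∣ m := fun hm h => hq (h.trans hm)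
  have hI : FA.Local.IntCoeff A.valuation (W⁄Qb).toAffine := by
    refine ⟨?_, ?_, ?_, ?_, ?_⟩ <;> refine valuation_ratCast_le_one hqp hv (hd ?_) <;>
      simp only [badNat] <;>
      repeat' first | exact dvd_mul_left _ _ | apply dvd_mul_of_dvd_left
  have hΔ : A.valuation (W⁄Qb).toAffine.Δ = 1 := by
    show A.valuation (W.map (algebraMap ℚ Qb)).Δ = 1
    rw [WeierstrassCurve.map_Δ, eq_ratCast, Rat.cast_def, map_div₀]
    have h1 : A.valuation ((W.Δ.num : ℤ) : Qb) = 1 :=
      FA.Local.natCast_eq_one_of_not_dvd hqp hv fun h =>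
        hd (dvd_mul_of_dvd_left (dvd_mul_left _ _) _) (Int.natCast_dvd.1 h)
    have h2 : A.valuation ((W.Δ.den : ℤ) : Qb) = 1 :=
      FA.Local.natCast_eq_one_of_not_dvd hqp hv fun h =>
        hd (dvd_mul_left _ _) (Int.natCast_dvd_natCast.1 h)
    rw [Int.cast_natCast] at h2
    rw [h1, h2, div_one]
  have h3 : A.valuation ((3 : ℕ) : Qb) = 1 := by
    have h : A.valuation ((3 : ℤ) : Qb) = 1 :=
      FA.Local.natCast_eq_one_of_not_dvd hqp hv fun h => hd (m := 3)
        (by simp only [badNat]; repeat' first | exact dvd_rfl | apply dvd_mul_of_dvd_left)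
        (Int.natCast_dvd_natCast.1 h)
    simpa using h
  haveI := FA.Frob.redCurve_isElliptic hI hΔ
  have hin := FA.Local.inert_of_mem_inertiaSubgroupIn A hσ
  refine FA.Frob.redHom_injOn hI hΔ Nat.prime_three h3 hP ?_
  rw [map_sub, sub_eq_zero, FA.Frob.redHom_apply, FA.Frob.redHom_apply]
  rcases P with _ | ⟨x, y, h⟩
  · rfl
  have hmem : ∀ z, σ z ∈ A ↔ z ∈ A := fun z => by
    rw [← A.valuation_le_one_iff, hin.map_eq, A.valuation_le_one_iff]
  by_cases hx : x ∈ A
  · have hy := FA.Frob.y_mem hI h.1 hx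
    obtain ⟨h₁, e₁⟩ := FA.Frob.redFun_of_mem hI h hx
    have hn : (W⁄Qb).toAffine.Nonsingular (σ x) (σ y) :=
      (W.toAffine.baseChange_nonsingular (f := σ.toAlgHom) σ.toAlgHom.injective x y).mpr h
    obtain ⟨h₂, e₂⟩ := FA.Frob.redFun_of_mem hI hn ((hmem x).2 hx)
    refine e₂.trans (Eq.trans ?_ e₁.symm)
    simp only [Affine.Point.some.injEq]
    exact ⟨(FA.Frob.resOf_eq_iff A ((hmem x).2 hx) hx).2
        (hin.sub_lt x ((A.valuation_le_one_iff x).2 hx)),
      (FA.Frob.resOf_eq_iff A ((hmem y).2 hy) hy).2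
        (hin.sub_lt y ((A.valuation_le_one_iff y).2 hy))⟩
  · rw [Affine.Point.algEquiv_smul_def, Affine.Point.map_some, FA.Frob.redFun, FA.Frob.redFun,
      dif_neg hx]
    exact dif_neg fun e => hx ((hmem x).1 e)

/-- The inclusion of the rational points. -/
def incl : W.toAffine.Point →+ (W⁄Qb).Point :=
  Affine.Point.map (W' := W.toAffine) (S := ℚ) (Algebra.ofId ℚ Qb)

theorem incl_injective : Function.Injective (incl W) :=
  Affine.Point.map_injective (W' := W.toAffine) (S := ℚ) (Algebra.ofId ℚ Qb)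

theorem smul_incl (g : GQ) (P : W.toAffine.Point) : g • incl W P = incl W P := by
  rcases P with _ | ⟨x, y, h⟩
  · rfl
  · show Affine.Point.some (g (algebraMap ℚ Qb x)) (g (algebraMap ℚ Qb y)) _ =
      Affine.Point.some (algebraMap ℚ Qb x) (algebraMap ℚ Qb y) _
    simp only [AlgEquiv.commutes]

theorem exists_incl_eq {P : (W⁄Qb).Point} (h : ∀ g : GQ, g • P = P) :
    ∃ R : W.toAffine.Point, incl W R = P := by
  rcases P with _ | ⟨x, y, hn⟩
  · exact ⟨0, map_zero _⟩
  obtain ⟨a, ha⟩ := mem_range_of_fixed (x := x) fun g => by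
    have e := h g
    rw [Affine.Point.algEquiv_smul_def, Affine.Point.map_some, Affine.Point.some.injEq] at e
    exact e.1
  obtain ⟨b, hb⟩ := mem_range_of_fixed (x := y) fun g => by
    have e := h g
    rw [Affine.Point.algEquiv_smul_def, Affine.Point.map_some, Affine.Point.some.injEq] at e
    exact e.2
  subst ha hb
  exact ⟨.some a b ((W.toAffine.baseChange_nonsingular (f := Algebra.ofId ℚ Qb)
    (algebraMap ℚ Qb).injective a b).mp hn), rfl⟩

/-- A third of a rational point. -/
def third (R : W.toAffine.Point) : (W⁄Qb).Point := (exists_third W (incl W R)).choose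

theorem three_nsmul_third (R : W.toAffine.Point) : 3 • third W R = incl W R :=
  (exists_third W (incl W R)).choose_spec

theorem three_nsmul_sub (R : W.toAffine.Point) (g : GQ) :
    3 • (g • third W R - third W R) = 0 := by
  have e : 3 • (g • third W R) = g • (3 • third W R) :=
    ((DistribSMul.toAddMonoidHom (W⁄Qb).Point g).map_nsmul 3 (third W R)).symm
  rw [nsmul_sub, e, three_nsmul_third, smul_incl, sub_self]

/-- The Kummer cocycle of a rational point. -/
def kummerFun (R : W.toAffine.Point) (g : GQ) : Three W :=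
  ⟨g • third W R - third W R, by
    rw [Submodule.mem_torsionBy_iff, natCast_zsmul]; exact three_nsmul_sub W R g⟩

theorem kummerFun_mem (R : W.toAffine.Point) : kummerFun W R ∈ Z1 LQ (threeRep W) := by
  obtain ⟨M, hM, h⟩ : ∃ M ∈ LQ.carrier, ∀ s ∈ M, (s : GQ) • third W R = third W R := by
    rcases third W R with _ | ⟨x, y, hn⟩
    · exact ⟨⊤, LQ.top_mem, fun s _ => rfl⟩
    · haveI : FiniteDimensional ℚ (IntermediateField.adjoin ℚ ({x, y} : Set Qb)) :=
        IntermediateField.finiteDimensional_adjoin fun z _ =>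
          ((AlgebraicClosure.isAlgebraic ℚ).isAlgebraic z).isIntegral
      refine ⟨_, fixingSubgroup_mem_fieldLevels (IntermediateField.adjoin ℚ ({x, y} : Set Qb)),
        fun s hs => ?_⟩
      rw [Affine.Point.algEquiv_smul_def, Affine.Point.map_some]
      simp only [Affine.Point.some.injEq]
      exact ⟨(IntermediateField.mem_fixingSubgroup_iff _ _).1 hs x
          (IntermediateField.subset_adjoin ℚ _ (by simp)),
        (IntermediateField.mem_fixingSubgroup_iff _ _).1 hs y
          (IntermediateField.subset_adjoin ℚ _ (by simp))⟩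
  refine ⟨⟨M, hM, fun g s hs => Subtype.ext ?_⟩, fun g h => Subtype.ext ?_⟩
  · show (g * s) • third W R - third W R = g • third W R - third W R
    rw [mul_smul, h s hs]
  · show (g * h) • third W R - third W R =
      g • (h • third W R - third W R) + (g • third W R - third W R)
    rw [smul_sub, mul_smul, sub_add_sub_cancel]

/-- The Kummer class of a rational point. -/
def kummerClass (R : W.toAffine.Point) : H1 LQ (threeRep W) :=
  mk1 LQ (threeRep W) ⟨kummerFun W R, kummerFun_mem W R⟩

theorem kummerClass_mem (R : W.toAffine.Point) :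
    kummerClass W R ∈ unrOutside (badPrimes W) (threeRep W) := by
  refine mem_unrOutside.2 fun q hq =>
    ⟨mapZ1 compat_loc (Equi.res (loc (q : ℕ)) (threeRep W)) ⟨kummerFun W R, kummerFun_mem W R⟩,
      fun t ht => ?_, (map1_mk1 compat_loc _ _).symm⟩
  haveI : Fact (q : ℕ).Prime := ⟨q.2⟩
  refine Subtype.ext ?_
  show loc (q : ℕ) t • third W R - third W R = 0
  refine inertia_fix W (fun h => hq (Finset.mem_subtype.2
    (Nat.mem_primeFactors.2 ⟨q.2, h, badNat_ne_zero W⟩))) ht ?_
  exact three_nsmul_sub W R _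

theorem sub_mem_range_of_kummerClass_eq {a b : W.toAffine.Point}
    (h : kummerClass W a = kummerClass W b) :
    a - b ∈ (nsmulAddMonoidHom (α := W.toAffine.Point) 3).range := by
  obtain ⟨v, hv⟩ := (mk1_eq_mk1 LQ (threeRep W) _ _).1 h
  have hy : ∀ g : GQ, g • (third W a - third W b - v.1) = third W a - third W b - v.1 := by
    intro g
    have e : g • v.1 - v.1 = (g • third W a - third W a) - (g • third W b - third W b) :=
      congrArg Subtype.val (congrFun hv g)
    rw [smul_sub, smul_sub, ← sub_eq_zero]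
    linear_combination (norm := abel) (-1 : ℤ) • e
  obtain ⟨R, hR⟩ := exists_incl_eq W hy
  refine ⟨R, incl_injective W ?_⟩
  have hv3 : 3 • v.1 = 0 := by
    rw [← natCast_zsmul]; exact (Submodule.mem_torsionBy_iff _ _).1 v.2
  show incl W (3 • R) = incl W (a - b)
  rw [map_nsmul, hR, nsmul_sub, nsmul_sub, three_nsmul_third, three_nsmul_third, hv3, sub_zero,
    map_sub]

/-- **Weak Mordell-Weil at three.** -/
theorem finiteIndex_three :
    (nsmulAddMonoidHom (α := W.toAffine.Point) 3).range.FiniteIndex := by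
  haveI : Finite (unrOutside (badPrimes W) (threeRep W)) :=
    finite_unrOutside_of (threePair W) (by norm_num) _
  set H := (nsmulAddMonoidHom (α := W.toAffine.Point) 3).range
  haveI : Finite (W.toAffine.Point ⧸ H) := Finite.of_injective
    (fun a => (⟨kummerClass W a.out, kummerClass_mem W a.out⟩ : unrOutside (badPrimes W) (threeRep W)))
    fun a b h => by
      have h1 := sub_mem_range_of_kummerClass_eq W (a := a.out) (b := b.out)
        (congrArg Subtype.val h)
      rw [← a.out_eq', ← b.out_eq', QuotientAddGroup.eq, neg_add_eq_sub]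
      exact (neg_sub a.out b.out) ▸ neg_mem h1
  exact AddSubgroup.finiteIndex_of_finite_quotient

end FA.MordellWeil

end
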