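import Fermat.Agent.MordellWeil.Height
import Fermat.Agent.MordellWeil.Weak

/-!
# Mordell's theorem

The rational points of an elliptic curve over `ℚ` form a finitely generated group.
-/

set_option autoImplicit false

noncomputable section

namespace FA.MordellWeil

/-- **Mordell's theorem.** -/
theorem mordell (E : WeierstrassCurve ℚ) [E.IsElliptic] : AddGroup.FG E.toAffine.Point :=
  fg_of_finiteIndex E (finiteIndex_three E)

end FA.MordellWeil

end
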